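import Fermat.Agent.OrthogonalUnits.Generators

/-!
# Finite subgroups of the units of an anisotropic form

A finite subgroup fixes a positive form, hence a majorant; a real automorph takes this to one of
finitely many, and an integral one makes that automorph bounded, so the subgroup becomes bounded.
-/

set_option autoImplicit false
set_option linter.style.haveILetI false

noncomputable section

open Matrix FA.Reduction FA.UnitsOrders FA.OrthogonalUnits

namespace FA.Orders

variable {n : ℕ}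

local notation "Mat" => Matrix (Fin n) (Fin n) ℝ

/-- The matrix of a sign vector. -/
def signMat (s : Fin n → Bool) : Mat := diagonal fun i => if s i then 1 else -1

theorem exists_sqrt_factor {P : Mat} (hP : P.PosDef) :
    ∃ W : Mat, IsUnit W.det ∧ Wᵀ * W = P := by
  obtain ⟨S, d, hS, hS', hPd, hd⟩ := exists_diagonal (posDef_iff_quad.1 hP).1 hP.det_pos.ne'
  have hdpos : ∀ i, 0 ≤ d i := fun i => by
    have h := quad_nonneg hP (Sᵀ *ᵥ Pi.single i 1)
    rw [hPd, quad_congr, mulVec_mulVec, hS', one_mulVec, quad, dotProduct_diag, dval,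
      Finset.sum_eq_single i (fun j _ hj => by simp [hj]) (by simp)] at h
    simpa using h
  have e : (diagonal (fun i => Real.sqrt (d i)) * S)ᵀ * (diagonal (fun i => Real.sqrt (d i)) * S) =
      P := by
    rw [hPd, show (diagonal (fun i => Real.sqrt (d i)) * S)ᵀ *
      (diagonal (fun i => Real.sqrt (d i)) * S) = Sᵀ * (diagonal (fun i => Real.sqrt (d i)) *
      diagonal (fun i => Real.sqrt (d i))) * S by
        simp only [transpose_mul, diagonal_transpose, Matrix.mul_assoc], diagonal_mul_diagonal]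
    exact congrArg (fun v => Sᵀ * diagonal v * S) (funext fun i => Real.mul_self_sqrt (hdpos i))
  refine ⟨_, isUnit_iff_ne_zero.2 fun h => hP.det_pos.ne' ?_, e⟩
  rw [← e, det_mul, h, mul_zero]

/-- **An invariant majorant.** -/
theorem exists_invariant_frame {A : Mat} (hA : A.IsSymm) (hdet : A.det ≠ 0)
    {H : Finset Mat} (hH : ∀ h ∈ H, hᵀ * A * h = A) (hmul : ∀ h ∈ H, ∀ k ∈ H, k * h ∈ H)
    (hone : (1 : Mat) ∈ H) :
    ∃ (s : Fin n → Bool) (W : Mat), IsUnit W.det ∧ Wᵀ * signMat s * W = A ∧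
      ∀ h ∈ H, (W * h)ᵀ * (W * h) = Wᵀ * W := by
  classical
  obtain ⟨P, hPdef⟩ : ∃ P, P = ∑ k ∈ H, kᵀ * k := ⟨_, rfl⟩
  have hP : P.PosDef := by
    refine posDef_iff_quad.2 ⟨?_, fun x hx => ?_⟩
    · rw [hPdef, IsSymm, transpose_sum]
      exact Finset.sum_congr rfl fun k _ => by rw [transpose_mul, transpose_transpose]
    · rw [hPdef, quad, sum_mulVec, dotProduct_sum]
      refine Finset.sum_pos' (fun k _ => ?_) ⟨1, hone, ?_⟩
      · rw [show x ⬝ᵥ (kᵀ * k) *ᵥ x = quad (kᵀ * k) x from rfl, quad_transpose_mul_self]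
        exact Finset.sum_nonneg fun i _ => sq_nonneg _
      · rw [show x ⬝ᵥ ((1 : Mat)ᵀ * 1) *ᵥ x = quad ((1 : Mat)ᵀ * 1) x from rfl,
          quad_transpose_mul_self]
        obtain ⟨i, hi⟩ := Function.ne_iff.1 hx
        exact Finset.sum_pos' (fun i _ => sq_nonneg _)
          ⟨i, Finset.mem_univ i, by rw [one_mulVec]; exact pow_two_pos_of_ne_zero hi⟩
  have hunit : ∀ h ∈ H, IsUnit h.det := fun h hh => isUnit_iff_ne_zero.2 fun h0 => by
    have := abs_det_orthSet hdet (hH h hh)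
    rw [h0, abs_zero] at this
    exact zero_ne_one this
  have hinv : ∀ h ∈ H, hᵀ * P * h = P := fun h hh => by
    rw [hPdef, Finset.mul_sum, Finset.sum_mul]
    refine Finset.sum_nbij (fun k => k * h) (fun k hk => hmul h hh k hk) ?_ ?_ fun k _ => by
      simp only [transpose_mul, Matrix.mul_assoc]
    · intro a _ b _ he
      have := congrArg (· * h⁻¹) (he : a * h = b * h)
      simpa [Matrix.mul_assoc, Matrix.mul_nonsing_inv _ (hunit h hh)] using this
    · refine Finset.surjOn_of_injOn_of_card_le _ (fun k hk => hmul h hh k hk) ?_ le_rfl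
      intro a _ b _ he
      have := congrArg (· * h⁻¹) (he : a * h = b * h)
      simpa [Matrix.mul_assoc, Matrix.mul_nonsing_inv _ (hunit h hh)] using this
  obtain ⟨B, hB, hBP⟩ := exists_sqrt_factor hP
  obtain ⟨S, d, hS, hS', hSd, hd⟩ := exists_diagonal (A := (B⁻¹)ᵀ * A * B⁻¹)
    (by rw [IsSymm, transpose_mul, transpose_mul, transpose_transpose, hA.eq, Matrix.mul_assoc])
    (by
      rw [det_mul, det_mul, det_transpose]
      have hb : (B⁻¹).det ≠ 0 := (isUnit_nonsing_inv_det _ hB).ne_zero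
      exact mul_ne_zero (mul_ne_zero hb hdet) hb)
  set W₀ := S * B
  have hSu : IsUnit S.det := IsUnit.of_mul_eq_one Sᵀ.det (by rw [← det_mul, hS', det_one])
  have hW₀u : IsUnit W₀.det := by rw [det_mul]; exact hSu.mul hB
  have hW₀P : W₀ᵀ * W₀ = P := by
    rw [show W₀ᵀ * W₀ = Bᵀ * (Sᵀ * S) * B by simp only [W₀, transpose_mul, Matrix.mul_assoc], hS,
      Matrix.mul_one, hBP]
  have hW₀A : W₀ᵀ * diagonal d * W₀ = A := by
    rw [show W₀ᵀ * diagonal d * W₀ = Bᵀ * (Sᵀ * diagonal d * S) * B by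
      simp only [W₀, transpose_mul, Matrix.mul_assoc], ← hSd,
      show Bᵀ * ((B⁻¹)ᵀ * A * B⁻¹) * B = (B⁻¹ * B)ᵀ * A * (B⁻¹ * B) by
        simp only [transpose_mul, Matrix.mul_assoc], nonsing_inv_mul _ hB, transpose_one,
      Matrix.one_mul, Matrix.mul_one]
  set r : Fin n → ℝ := fun i => Real.sqrt |d i|
  set s : Fin n → Bool := fun i => decide (0 < d i)
  have hr : ∀ i, r i ≠ 0 := fun i => (Real.sqrt_pos.2 (abs_pos.2 (hd i))).ne'
  refine ⟨s, diagonal r * W₀, ?_, ?_, fun h hh => ?_⟩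
  · rw [det_mul, det_diagonal]
    exact (isUnit_iff_ne_zero.2 (Finset.prod_ne_zero_iff.2 fun i _ => hr i)).mul hW₀u
  · conv_rhs => rw [← hW₀A]
    rw [show (diagonal r * W₀)ᵀ * signMat s * (diagonal r * W₀) =
      W₀ᵀ * (diagonal r * signMat s * diagonal r) * W₀ by
        simp only [transpose_mul, diagonal_transpose, Matrix.mul_assoc], signMat,
      diagonal_mul_diagonal, diagonal_mul_diagonal]
    refine congrArg (fun v => W₀ᵀ * diagonal v * W₀) (funext fun i => ?_)
    rw [mul_right_comm, Real.mul_self_sqrt (abs_nonneg _)]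
    rcases lt_or_gt_of_ne (hd i) with h | h
    · simp [s, h.not_gt, abs_of_neg h]
    · simp [s, h, abs_of_pos h]
  · set k := W₀ * h * W₀⁻¹
    have hW₀inv : W₀⁻¹ * W₀ = 1 := nonsing_inv_mul _ hW₀u
    have hk : k * W₀ = W₀ * h := by rw [Matrix.mul_assoc, hW₀inv, Matrix.mul_one]
    have hcancel : ∀ X Y : Mat, W₀ᵀ * X * W₀ = W₀ᵀ * Y * W₀ → X = Y := fun X Y he => by
      have h1 : W₀ * W₀⁻¹ = 1 := mul_nonsing_inv _ hW₀u
      have h2 := congrArg (fun Z => (W₀⁻¹)ᵀ * Z * W₀⁻¹) he
      rwa [show (W₀⁻¹)ᵀ * (W₀ᵀ * X * W₀) * W₀⁻¹ = (W₀ * W₀⁻¹)ᵀ * X * (W₀ * W₀⁻¹) by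
          simp only [transpose_mul, Matrix.mul_assoc],
        show (W₀⁻¹)ᵀ * (W₀ᵀ * Y * W₀) * W₀⁻¹ = (W₀ * W₀⁻¹)ᵀ * Y * (W₀ * W₀⁻¹) by
          simp only [transpose_mul, Matrix.mul_assoc], h1, transpose_one, Matrix.one_mul,
        Matrix.one_mul, Matrix.mul_one, Matrix.mul_one] at h2
    have hmove : ∀ X : Mat, W₀ᵀ * (kᵀ * X * k) * W₀ = hᵀ * (W₀ᵀ * X * W₀) * h := fun X => by
      rw [show W₀ᵀ * (kᵀ * X * k) * W₀ = (k * W₀)ᵀ * X * (k * W₀) by
        simp only [transpose_mul, Matrix.mul_assoc], hk]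
      simp only [transpose_mul, Matrix.mul_assoc]
    have hk1 : kᵀ * k = 1 := hcancel _ _ (by
      have := hmove 1
      simp only [Matrix.mul_one] at this ⊢
      rw [this, hW₀P, hinv h hh])
    have hk2 : kᵀ * diagonal d * k = diagonal d := hcancel _ _ (by
      rw [hmove, hW₀A, hH h hh])
    have hk1' : k * kᵀ = 1 := mul_eq_one_comm.1 hk1
    have hcomm : diagonal d * k = k * diagonal d := by
      calc diagonal d * k = (k * kᵀ) * (diagonal d * k) := by rw [hk1', Matrix.one_mul]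
        _ = k * (kᵀ * diagonal d * k) := by simp only [Matrix.mul_assoc]
        _ = k * diagonal d := by rw [hk2]
    have hcomm' : diagonal (fun i => r i * r i) * k = k * diagonal (fun i => r i * r i) := by
      ext i j
      have := congrFun (congrFun hcomm i) j
      rw [diagonal_mul, mul_diagonal] at this
      rw [diagonal_mul, mul_diagonal]
      by_cases hkij : k i j = 0
      · simp [hkij]
      · have hij : d i = d j := mul_right_cancel₀ hkij (by rw [this, mul_comm])
        simp [r, hij, mul_comm]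
    show (diagonal r * W₀ * h)ᵀ * (diagonal r * W₀ * h) = _
    rw [Matrix.mul_assoc (diagonal r), ← hk,
      show (diagonal r * (k * W₀))ᵀ * (diagonal r * (k * W₀)) =
        W₀ᵀ * (kᵀ * ((diagonal r * diagonal r) * k)) * W₀ by
        simp only [transpose_mul, diagonal_transpose, Matrix.mul_assoc], diagonal_mul_diagonal,
      hcomm', ← Matrix.mul_assoc kᵀ, hk1, Matrix.one_mul, ← diagonal_mul_diagonal]
    simp only [transpose_mul, diagonal_transpose, Matrix.mul_assoc]

theorem small_of_orth {h : Mat} (hh : hᵀ * h = 1) : Small 1 h := fun i j => by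
  have e : ∑ k, h k j ^ 2 = 1 := by
    have := congrFun (congrFun hh j) j
    rw [Matrix.mul_apply, Matrix.one_apply_eq] at this
    rw [← this]
    exact Finset.sum_congr rfl fun k _ => by rw [transpose_apply, sq]
  have := (Finset.single_le_sum (f := fun k => h k j ^ 2) (fun k _ => sq_nonneg _)
    (Finset.mem_univ i)).trans e.le
  exact (sq_le_one_iff_abs_le_one _).1 this

/-- **Finitely many classes of finite subgroups** of the units of an anisotropic form. -/
theorem finite_form_subgroups {A : Matrix (Fin n) (Fin n) ℤ} (hAs : A.IsSymm)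
    (hA : IsAnisotropicInt A) :
    ∃ F : Finset (Subgroup (GL (Fin n) ℤ)), ∀ H : Subgroup (GL (Fin n) ℤ), Finite H →
      H ≤ automorphs A → ∃ H' ∈ F, ∃ U ∈ automorphs A, H' = H.map (MulAut.conj U).toMonoidHom := by
  classical
  have hdet := det_ne_zero_of_anisotropic hA
  obtain ⟨R, hR, hbd⟩ := exists_automorph_small hA
  have hT : ∀ s : Fin n → Bool, ∃ T : Mat, (∃ W : Mat, IsUnit W.det ∧
      Wᵀ * signMat s * W = toReal A) → IsUnit T.det ∧ Tᵀ * signMat s * T = toReal A := fun s => by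
    by_cases hs : ∃ W : Mat, IsUnit W.det ∧ Wᵀ * signMat s * W = toReal A
    · obtain ⟨W, hW⟩ := hs
      exact ⟨W, fun _ => hW⟩
    · exact ⟨1, fun h => absurd h hs⟩
  choose T hTs using hT
  set Q : ℝ := 1 + ∑ s : Fin n → Bool, ∑ i, ∑ j, (|T s i j| + |(T s)⁻¹ i j|)
  set R' : ℝ :=
    n * ((n * ((n * ((n.factorial * R ^ n) * Q)) * 1)) * (n * (Q * R)))
  have hfin := finite_small_rep (n := n) R'
  refine ⟨(((hfin.finite_subsets).preimage (f := fun H : Subgroup (GL (Fin n) ℤ) =>
    (H : Set (GL (Fin n) ℤ))) SetLike.coe_injective.injOn)).toFinset, fun H hHfin hHA => ?_⟩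
  haveI := Fintype.ofFinite H
  obtain ⟨s, W, hWu, hWA, hWH⟩ := exists_invariant_frame (A := toReal A)
    (by rw [Matrix.IsSymm, toReal, ← transpose_map, hAs.eq]) hdet
    (H := Finset.univ.image fun u : H => rep (u : GL (Fin n) ℤ))
    (fun h hh => by
      obtain ⟨u, -, rfl⟩ := Finset.mem_image.1 hh
      exact rep_mem (hHA u.2))
    (fun h hh k hk => by
      obtain ⟨u, -, rfl⟩ := Finset.mem_image.1 hh
      obtain ⟨v, -, rfl⟩ := Finset.mem_image.1 hk
      exact Finset.mem_image.2 ⟨v * u, Finset.mem_univ _, by rw [Subgroup.coe_mul, rep_mul]⟩)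
    (Finset.mem_image.2 ⟨1, Finset.mem_univ _, by rw [Subgroup.coe_one, rep_one]⟩)
  obtain ⟨hTu, hTA⟩ := hTs s ⟨W, hWu, hWA⟩
  set g := (T s)⁻¹ * W
  have hWT : T s * g = W := by
    rw [← Matrix.mul_assoc, mul_nonsing_inv _ hTu, Matrix.one_mul]
  have hg : g ∈ orthSet (toReal A) := by
    show gᵀ * toReal A * g = toReal A
    conv_lhs => rw [← hTA]
    rw [show gᵀ * ((T s)ᵀ * signMat s * T s) * g = (T s * g)ᵀ * signMat s * (T s * g) by
      simp only [transpose_mul, Matrix.mul_assoc], hWT, hWA]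
  obtain ⟨V, hV, hx⟩ := hbd g hg
  refine ⟨H.map (MulAut.conj V⁻¹).toMonoidHom, ?_, V⁻¹, Subgroup.inv_mem _ hV, rfl⟩
  rw [Set.Finite.mem_toFinset]
  rintro _ ⟨u, hu, rfl⟩
  show Small R' (rep ((MulAut.conj V⁻¹) u))
  rw [MulAut.conj_apply, inv_inv, rep_mul, rep_mul, rep_inv]
  set x := g * rep V
  have hxd : |x.det| = 1 := abs_det_orthSet hdet (mul_mem_orthSet hg (rep_mem hV))
  set k := W * rep u * W⁻¹
  have hk : kᵀ * k = 1 := by
    have h := hWH (rep u) (Finset.mem_image.2 ⟨⟨u, hu⟩, Finset.mem_univ _, rfl⟩)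
    calc kᵀ * k = (W⁻¹)ᵀ * ((W * rep u)ᵀ * (W * rep u)) * W⁻¹ := by
          simp only [k, transpose_mul, Matrix.mul_assoc]
      _ = (W * W⁻¹)ᵀ * (W * W⁻¹) := by
          rw [h]
          simp only [transpose_mul, Matrix.mul_assoc]
      _ = 1 := by rw [mul_nonsing_inv _ hWu, transpose_one, Matrix.one_mul]
  have e : (rep V)⁻¹ * rep u * rep V = (x⁻¹ * (T s)⁻¹) * k * (T s * x) := by
    rw [← Matrix.mul_inv_rev, show T s * x = W * rep V by rw [← Matrix.mul_assoc, hWT],
      Matrix.mul_inv_rev, show (rep V)⁻¹ * W⁻¹ * k * (W * rep V) =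
        (rep V)⁻¹ * (W⁻¹ * W) * rep u * (W⁻¹ * W) * rep V by simp only [k, Matrix.mul_assoc],
      nonsing_inv_mul _ hWu, Matrix.mul_one, Matrix.mul_one]
  rw [e]
  have hQ : ∀ t, Small Q (T t) ∧ Small Q (T t)⁻¹ := fun t => by
    have h : ∀ i j, |T t i j| + |(T t)⁻¹ i j| ≤ Q := fun i j =>
      ((Finset.single_le_sum (f := fun j => |T t i j| + |(T t)⁻¹ i j|) (fun _ _ => by positivity)
        (Finset.mem_univ j)).trans ((Finset.single_le_sum
          (f := fun i => ∑ j, (|T t i j| + |(T t)⁻¹ i j|)) (fun _ _ => by positivity)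
          (Finset.mem_univ i)).trans (Finset.single_le_sum
            (f := fun t => ∑ i, ∑ j, (|T t i j| + |(T t)⁻¹ i j|)) (fun _ _ => by positivity)
            (Finset.mem_univ t)))).trans (le_add_of_nonneg_left zero_le_one)
    exact ⟨fun i j => (le_add_of_nonneg_right (abs_nonneg _)).trans (h i j),
      fun i j => (le_add_of_nonneg_left (abs_nonneg _)).trans (h i j)⟩
  exact (((hx.inv hR hxd).mul (hQ s).2).mul (small_of_orth hk)).mul ((hQ s).1.mul hx)

end FA.Orders

end
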