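import Fermat.Agent.UnitsOrders.Generators
import Fermat.Agent.JordanZassenhaus.Main
import Mathlib.LinearAlgebra.Trace
import Mathlib.Algebra.Algebra.Operations

/-!
# Maximal orders

An order containing a given one lies in a fixed multiple of it, by the trace form; so there are
maximal ones. For a maximal order `O'` the lattice `O' O` is, up to a left multiplication, one of
finitely many, and `O'` is conjugate to the order of left multipliers of that one.
-/

set_option autoImplicit false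
set_option linter.style.haveILetI false

noncomputable section

open Module Matrix MulOpposite FA.JordanZassenhaus FA.UnitsOrders

namespace FA.Orders

variable {D : Type*} [DivisionRing D] [Algebra ℚ D]

/-- The lattice of a subring. -/
def lat (O : Subring D) : Submodule ℤ D := AddSubgroup.toIntSubmodule O.toAddSubgroup

omit [Algebra ℚ D] in
@[simp] theorem mem_lat {O : Subring D} {x : D} : x ∈ lat O ↔ x ∈ O := Iff.rfl

/-- An order: finitely generated, with a nonzero multiple of every element. -/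
def IsOrder (O : Subring D) : Prop :=
  O.toAddSubgroup.FG ∧ ∀ x : D, ∃ m : ℕ, m ≠ 0 ∧ m • x ∈ O

/-- A maximal order. -/
def IsMaximalOrder (O : Subring D) : Prop :=
  IsOrder O ∧ ∀ O' : Subring D, IsOrder O' → O ≤ O' → O' = O

omit [Algebra ℚ D] in
theorem IsOrder.isFull {O : Subring D} (hO : IsOrder O) : IsFull (lat O) :=
  ⟨(Submodule.fg_iff_addSubgroup_fg _).2 hO.1, hO.2⟩

omit [Algebra ℚ D] in
theorem isOrder_of_isFull {O : Subring D} (hO : IsFull (lat O)) : IsOrder O :=
  ⟨(Submodule.fg_iff_addSubgroup_fg _).1 hO.1, hO.2⟩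

theorem torsionFree : IsAddTorsionFree D := by
  haveI : CharZero D := charZero_of_injective_algebraMap (algebraMap ℚ D).injective
  infer_instance

/-- The integral trace form is not degenerate. -/
theorem det_traceForm_ne_zero {n : ℕ} (b : Basis (Fin n) ℚ D) :
    (Matrix.of fun i j => (Algebra.leftMulMatrix b (b i * b j)).trace).det ≠ 0 := fun h => by
  obtain ⟨v, hv0, hv⟩ := Matrix.exists_vecMul_eq_zero_iff.2 h
  set d := ∑ i, v i • b i
  have hd : d ≠ 0 := fun h0 =>
    hv0 (funext (Fintype.linearIndependent_iff.1 b.linearIndependent v h0))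
  let τ : D →ₗ[ℚ] ℚ := (Matrix.traceLinearMap (Fin n) ℚ ℚ) ∘ₗ
    (Algebra.leftMulMatrix b).toLinearMap ∘ₗ LinearMap.mulLeft ℚ d
  have hτ : τ = 0 := b.ext fun j => by
    show (Algebra.leftMulMatrix b (d * b j)).trace = 0
    rw [Finset.sum_mul, map_sum, Matrix.trace_sum]
    refine Eq.trans (Finset.sum_congr rfl fun i _ => ?_) (congrFun hv j)
    rw [smul_mul_assoc, map_smul, Matrix.trace_smul, smul_eq_mul]
    rfl
  have h1 : (Algebra.leftMulMatrix b (d * d⁻¹)).trace = 0 := LinearMap.congr_fun hτ d⁻¹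
  rw [mul_inv_cancel₀ hd, map_one, Matrix.trace_one, Fintype.card_fin, Nat.cast_eq_zero] at h1
  exact ne_zero_dim b h1

/-- The trace of an element of an order is integral, in any basis. -/
theorem exists_int_trace {O : Subring D} (hO : IsOrder O) {n : ℕ} (b : Basis (Fin n) ℚ D) {x : D}
    (hx : x ∈ O) : ∃ z : ℤ, (Algebra.leftMulMatrix b x).trace = z := by
  obtain ⟨m, b', hb'⟩ := exists_isIntBasis hO.1 hO.2
  obtain ⟨A, hA⟩ := hb'.exists_int hx
  refine ⟨A.trace, ?_⟩
  rw [Algebra.leftMulMatrix_apply, ← LinearMap.trace_eq_matrix_trace,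
    LinearMap.trace_eq_matrix_trace ℚ b', ← Algebra.leftMulMatrix_apply, ← hA]
  exact (AddMonoidHom.map_trace (Int.castRingHom ℚ) A).symm

/-- An order containing `O` has a fixed multiple in `O`. -/
theorem exists_common_multiple {O : Subring D} (hO : IsOrder O) :
    ∃ L : ℕ, L ≠ 0 ∧ ∀ O' : Subring D, IsOrder O' → O ≤ O' → ∀ x ∈ O', L • x ∈ O := by
  classical
  obtain ⟨n, b, hb⟩ := exists_isIntBasis hO.1 hO.2
  choose Tz hTz using fun i j => exists_int_trace hO b (mul_mem (hb.mem i) (hb.mem j))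
  set T : Matrix (Fin n) (Fin n) ℤ := Matrix.of Tz
  have hT : T.map (Int.castRingHom ℚ) =
      Matrix.of fun i j => (Algebra.leftMulMatrix b (b i * b j)).trace :=
    Matrix.ext fun i j => (hTz i j).symm
  have hdet : T.det ≠ 0 := fun h => det_traceForm_ne_zero b (by
    rw [← hT, ← RingHom.mapMatrix_apply, ← RingHom.map_det, h, map_zero])
  refine ⟨T.det.natAbs, Int.natAbs_ne_zero.2 hdet, fun O' hO' hle x hx => ?_⟩
  choose z hz using fun j => exists_int_trace hO' b (mul_mem hx (hle (hb.mem j)))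
  set c : Fin n → ℚ := fun i => b.repr x i
  have h1 : c ᵥ* T.map (Int.castRingHom ℚ) = fun j => (z j : ℚ) := funext fun j => by
    rw [← hz, hT]
    conv_rhs => rw [← b.sum_repr x, Finset.sum_mul, map_sum, Matrix.trace_sum]
    simp only [Matrix.vecMul, dotProduct]
    refine Finset.sum_congr rfl fun i _ => ?_
    rw [smul_mul_assoc, map_smul, Matrix.trace_smul]
    rfl
  have h2 : (T.det : ℚ) • c = fun i => (((z ᵥ* T.adjugate) i : ℤ) : ℚ) := by
    have h3 := congrArg (· ᵥ* T.adjugate.map (Int.castRingHom ℚ)) h1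
    simp only [Matrix.vecMul_vecMul, ← Matrix.map_mul, Matrix.mul_adjugate] at h3
    have e : (T.det • (1 : Matrix (Fin n) (Fin n) ℤ)).map (Int.castRingHom ℚ) =
        (T.det : ℚ) • (1 : Matrix (Fin n) (Fin n) ℚ) := by
      ext i j
      rw [Matrix.map_apply, Matrix.smul_apply, Matrix.smul_apply, Matrix.one_apply,
        Matrix.one_apply]
      split_ifs <;> simp
    rw [e, Matrix.vecMul_smul, Matrix.vecMul_one] at h3
    rw [h3]
    funext i
    exact (RingHom.map_vecMul (Int.castRingHom ℚ) T.adjugate z i).symm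
  have h4 : T.det • x ∈ O := (hb _).2 fun i => ⟨(z ᵥ* T.adjugate) i, by
    rw [map_zsmul, Finsupp.smul_apply, zsmul_eq_mul]
    exact congrFun h2 i⟩
  rcases Int.natAbs_eq T.det with h | h
  · rw [h, natCast_zsmul] at h4
    exact h4
  · rw [h, neg_smul, natCast_zsmul] at h4
    exact neg_mem_iff.1 h4

/-- **Finitely many orders contain a given one.** -/
theorem finite_orders_above {O : Subring D} (hO : IsOrder O) :
    {O' : Subring D | IsOrder O' ∧ O ≤ O'}.Finite := by
  haveI : IsAddTorsionFree D := torsionFree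
  obtain ⟨L, hL, h⟩ := exists_common_multiple hO
  refine Set.Finite.of_finite_image (f := lat)
    ((finite_setOf_isNear hO.isFull.1 hL).subset ?_) fun P _ Q _ he => ?_
  · rintro _ ⟨O', ⟨hO', hle⟩, rfl⟩
    exact ⟨h O' hO' hle, fun x hx => nsmul_mem (hle hx) L⟩
  · exact SetLike.ext fun x => SetLike.ext_iff.1 he x

/-- **Maximal orders exist.** -/
theorem exists_maximal_above {O : Subring D} (hO : IsOrder O) :
    ∃ O' : Subring D, IsMaximalOrder O' ∧ O ≤ O' := by
  obtain ⟨O', ⟨hO', hle⟩, hmax⟩ :=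
    (finite_orders_above hO).exists_maximal ⟨O, hO, le_rfl⟩
  exact ⟨O', ⟨hO', fun O'' hO'' h =>
    le_antisymm (hmax ⟨hO'', hle.trans h⟩ h) h⟩, hle⟩

/-- The left multipliers of a lattice. -/
def leftOrder (L : Submodule ℤ D) : Subring D where
  carrier := {x | ∀ y ∈ L, x * y ∈ L}
  mul_mem' := fun {a b} ha hb y hy => by rw [mul_assoc]; exact ha _ (hb y hy)
  one_mem' := fun y hy => by rwa [one_mul]
  add_mem' := fun {a b} ha hb y hy => by rw [add_mul]; exact add_mem (ha y hy) (hb y hy)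
  zero_mem' := fun y _ => by rw [zero_mul]; exact zero_mem L
  neg_mem' := fun {a} ha y hy => by rw [neg_mul]; exact neg_mem (ha y hy)

theorem fg_leftOrder {L : Submodule ℤ D} (hL : IsFull L) : (lat (leftOrder L)).FG := by
  haveI : IsAddTorsionFree D := torsionFree
  obtain ⟨m, hm, h1⟩ := hL.2 1
  have hc := hL.comap (DistribSMul.toAddMonoidHom D m).toIntLinearMap (nsmul_right_injective hm)
  haveI := isNoetherian_of_fg_of_noetherian _ hc.1
  refine Submodule.FG.of_le hc.1 fun x hx => ?_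
  show m • x ∈ L
  have := hx _ h1
  rwa [mul_smul_comm, mul_one] at this

/-- Conjugation by a nonzero element. -/
def conjEquiv (u : D) (hu : u ≠ 0) : D ≃+* D where
  toFun x := u * x * u⁻¹
  invFun x := u⁻¹ * x * u
  left_inv x := by simp [mul_assoc, hu]
  right_inv x := by simp [mul_assoc, hu]
  map_mul' x y := by simp [mul_assoc, hu]
  map_add' x y := by simp [mul_add, add_mul]

omit [Algebra ℚ D] in
theorem isOrder_map (c : D ≃+* D) {O : Subring D} (hO : IsOrder O) :
    IsOrder (O.map (c : D →+* D)) := by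
  refine isOrder_of_isFull ⟨?_, fun x => ?_⟩
  · have : lat (O.map (c : D →+* D)) = (lat O).map c.toAddEquiv.toIntLinearEquiv.toLinearMap := rfl
    rw [this]
    exact hO.isFull.1.map _
  · obtain ⟨m, hm, h⟩ := hO.2 (c.symm x)
    exact ⟨m, hm, m • c.symm x, h, by simp⟩

omit [Algebra ℚ D] in
theorem IsMaximalOrder.map (c : D ≃+* D) {O : Subring D} (hO : IsMaximalOrder O) :
    IsMaximalOrder (O.map (c : D →+* D)) := by
  refine ⟨isOrder_map c hO.1, fun O'' hO'' hle => le_antisymm (fun x hx => ?_) hle⟩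
  have h := hO.2 _ (isOrder_map c.symm hO'') fun y hy =>
    ⟨c y, hle ⟨y, hy, rfl⟩, c.symm_apply_apply y⟩
  exact ⟨c.symm x, (SetLike.ext_iff.1 h _).1 ⟨x, hx, rfl⟩, c.apply_symm_apply x⟩

/-- The order, as a lattice in the opposite algebra. -/
def opLat (O : Subring D) : Submodule ℤ Dᵐᵒᵖ :=
  (lat O).map (opAddEquiv (α := D)).toIntLinearEquiv.toLinearMap

omit [Algebra ℚ D] in
theorem isFull_opLat {O : Subring D} (hO : IsOrder O) : IsFull (opLat O) :=
  hO.isFull.map _ (opAddEquiv (α := D)).surjective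

/-- **The type number is finite.** -/
theorem finite_types :
    ∃ F : Finset (Subring D), ∀ O : Subring D, IsMaximalOrder O →
      ∃ O₁ ∈ F, ∃ u : D, u ≠ 0 ∧ ∀ x : D, x ∈ O₁ ↔ u⁻¹ * x * u ∈ O := by
  classical
  by_cases hex : ∃ O₀ : Subring D, IsOrder O₀
  swap
  · exact ⟨∅, fun O hO => absurd ⟨O, hO.1⟩ hex⟩
  obtain ⟨O₀, hO₀⟩ := hex
  obtain ⟨n, b, -⟩ := exists_isIntBasis hO₀.1 hO₀.2
  haveI : FiniteDimensional ℚ D := Module.Finite.of_basis b
  haveI : FiniteDimensional ℚ Dᵐᵒᵖ := Module.Finite.equiv (opLinearEquiv ℚ (M := D))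
  haveI : IsAddTorsionFree D := torsionFree
  haveI : IsScalarTower ℚ Dᵐᵒᵖ D := ⟨fun q a x => mul_smul_comm q x a.unop⟩
  obtain ⟨F, hF⟩ := (hasBoundedClasses (isFull_opLat hO₀) D).exists_finite
  refine ⟨F.image leftOrder, fun O hO => ?_⟩
  set L : Submodule ℤ D := lat O * lat O₀
  have hLfull : IsFull L := by
    refine ⟨hO.1.isFull.1.mul hO₀.isFull.1, fun x => ?_⟩
    obtain ⟨m, hm, h⟩ := hO.1.2 x
    refine ⟨m, hm, ?_⟩
    have h' : m • x ∈ lat O := h
    simpa using Submodule.mul_mem_mul h' (show (1 : D) ∈ lat O₀ from one_mem O₀)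
  have hleft : ∀ a ∈ O, ∀ y ∈ L, a * y ∈ L := fun a ha y hy => by
    refine Submodule.mul_induction_on hy (fun p hp q hq => ?_) fun p q hp hq => ?_
    · rw [← mul_assoc]
      exact Submodule.mul_mem_mul (show a * p ∈ lat O from O.mul_mem ha hp) hq
    · rw [mul_add]
      exact add_mem hp hq
  have hright : IsStable (opLat O₀) L := by
    rintro _ ⟨a, ha, rfl⟩ y hy
    show y * a ∈ L
    refine Submodule.mul_induction_on hy (fun p hp q hq => ?_) fun p q hp hq => ?_
    · rw [mul_assoc]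
      exact Submodule.mul_mem_mul hp (show q * a ∈ lat O₀ from O₀.mul_mem hq ha)
    · rw [add_mul]
      exact add_mem hp hq
  obtain ⟨φ, hφ⟩ := hF L hLfull hright
  set u := φ 1
  have hu : u ≠ 0 := fun h => one_ne_zero (φ.map_eq_zero_iff.1 h : (1 : D) = 0)
  have hφx : ∀ x, φ x = u * x := fun x => by
    have h := φ.map_smul (op x) 1
    rwa [op_smul_eq_mul, op_smul_eq_mul, one_mul] at h
  set L' := L.map φ.toAddEquiv.toIntLinearEquiv.toLinearMap
  refine ⟨leftOrder L', Finset.mem_image_of_mem _ hφ, u, hu, ?_⟩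
  have hle : O.map (conjEquiv u hu : D →+* D) ≤ leftOrder L' := by
    rintro _ ⟨a, ha, rfl⟩ _ ⟨y, hy, rfl⟩
    refine ⟨a * y, hleft a ha y hy, ?_⟩
    show φ (a * y) = u * a * u⁻¹ * φ y
    rw [hφx, hφx, mul_assoc (u * a), inv_mul_cancel_left₀ hu, mul_assoc]
  have hmax := (hO.map (conjEquiv u hu)).2 (leftOrder L') (isOrder_of_isFull
    ⟨fg_leftOrder (hLfull.map _ φ.surjective), fun x => by
      obtain ⟨m, hm, h⟩ := (hO.map (conjEquiv u hu)).1.2 x
      exact ⟨m, hm, hle h⟩⟩) hle
  intro x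
  rw [hmax]
  refine ⟨?_, fun h => ⟨_, h, (conjEquiv u hu).apply_symm_apply x⟩⟩
  rintro ⟨a, ha, rfl⟩
  show (conjEquiv u hu).symm ((conjEquiv u hu) a) ∈ O
  rw [RingEquiv.symm_apply_apply]
  exact ha

end FA.Orders

end
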