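import Fermat.Agent.Orders.Maximal
import Fermat.Agent.JordanZassenhaus.Representations
import Mathlib.Algebra.MonoidAlgebra.Lift

/-!
# Finite subgroups of the units of an order

A homomorphism from a finite group to the units makes the order a lattice for the group algebra of
the opposite algebra, which is semisimple by averaging; isomorphic lattices give conjugate
homomorphisms.
-/

set_option autoImplicit false
set_option linter.style.haveILetI false

noncomputable section

open Module MulOpposite FA.JordanZassenhaus FA.UnitsOrders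

namespace FA.Orders

section Maschke

variable (K : Type*) [DivisionRing K] [CharZero K] (G : Type*) [Group G] [Finite G]

/-- **Maschke's theorem over a division ring.** -/
theorem isSemisimpleRing_monoidAlgebra : IsSemisimpleRing (MonoidAlgebra K G) := by
  classical
  haveI := Fintype.ofFinite G
  refine (isSemisimpleModule_iff _ _).2 ⟨fun W => ?_⟩
  obtain ⟨P, hP⟩ := exists_isCompl (W.restrictScalars K)
  set π := Submodule.projectionOnto _ P hP
  have hπ : ∀ x, (π x : MonoidAlgebra K G) ∈ W := fun x => (π x).2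
  set c : K := ((Fintype.card G : ℕ) : K)⁻¹
  have hc : ∀ r : K, Commute c r := fun r => (Nat.cast_commute _ r).inv_left₀
  have hsmul : ∀ (r : K) (x : MonoidAlgebra K G), r • x = MonoidAlgebra.single 1 r * x := by
    intro r x
    induction x using MonoidAlgebra.induction_linear with
    | zero => simp
    | add x y hx hy => rw [smul_add, hx, hy, mul_add]
    | single g a => rw [MonoidAlgebra.smul_single', MonoidAlgebra.single_mul_single, one_mul]
  set S : MonoidAlgebra K G → MonoidAlgebra K G := fun x =>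
    ∑ g : G, MonoidAlgebra.single g 1 * (π (MonoidAlgebra.single g⁻¹ 1 * x) : MonoidAlgebra K G)
  have hSadd : ∀ x y, S (x + y) = S x + S y := fun x y => by
    simp only [S, mul_add, map_add, Submodule.coe_add, Finset.sum_add_distrib]
  have hSmem : ∀ x, S x ∈ W := fun x => sum_mem fun g _ => W.smul_mem _ (hπ _)
  have hScal : ∀ (r : K) x, S (MonoidAlgebra.single 1 r * x) =
      MonoidAlgebra.single 1 r * S x := fun r x => by
    simp only [S, Finset.mul_sum]
    refine Finset.sum_congr rfl fun g _ => ?_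
    rw [← mul_assoc (MonoidAlgebra.single g⁻¹ (1 : K)), MonoidAlgebra.single_mul_single, mul_one,
      one_mul, show MonoidAlgebra.single g⁻¹ r =
        MonoidAlgebra.single 1 r * MonoidAlgebra.single g⁻¹ 1 by
        rw [MonoidAlgebra.single_mul_single, one_mul, mul_one],
      mul_assoc, ← hsmul, map_smul, Submodule.coe_smul, hsmul, ← mul_assoc, ← mul_assoc,
      MonoidAlgebra.single_mul_single, MonoidAlgebra.single_mul_single]
    simp
  have hSgrp : ∀ (h : G) x, S (MonoidAlgebra.single h 1 * x) =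
      MonoidAlgebra.single h 1 * S x := fun h x => by
    simp only [S, Finset.mul_sum]
    refine (Fintype.sum_equiv (Equiv.mulLeft h) _ _ fun g => ?_).symm
    rw [Equiv.coe_mulLeft, ← mul_assoc, MonoidAlgebra.single_mul_single, one_mul, mul_inv_rev,
      ← mul_assoc, MonoidAlgebra.single_mul_single, one_mul, inv_mul_cancel_right]
  have hS : ∀ a x, S (a * x) = a * S x := fun a x => by
    induction a using MonoidAlgebra.induction_linear with
    | zero => simp [S]
    | add a b ha hb => rw [add_mul, hSadd, ha, hb, add_mul]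
    | single g r =>
      rw [show MonoidAlgebra.single g r = MonoidAlgebra.single 1 r * MonoidAlgebra.single g 1 by
        rw [MonoidAlgebra.single_mul_single, one_mul, mul_one], mul_assoc, hScal, hSgrp, mul_assoc]
  let π' : MonoidAlgebra K G →ₗ[MonoidAlgebra K G] W :=
    { toFun := fun x => ⟨MonoidAlgebra.single 1 c * S x, W.smul_mem _ (hSmem x)⟩
      map_add' := fun x y => Subtype.ext (by
        simp only [hSadd, mul_add]
        rfl)
      map_smul' := fun a x => Subtype.ext (by
        show MonoidAlgebra.single 1 c * S (a * x) = a * (MonoidAlgebra.single 1 c * S x)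
        rw [hS, ← mul_assoc, ← mul_assoc]
        congr 1
        induction a using MonoidAlgebra.induction_linear with
        | zero => simp
        | add a b ha hb => rw [mul_add, add_mul, ha, hb]
        | single g r =>
          rw [MonoidAlgebra.single_mul_single, MonoidAlgebra.single_mul_single, one_mul, mul_one,
            (hc r).eq]) }
  refine ⟨LinearMap.ker π', LinearMap.isCompl_of_proj (f := π') fun x => Subtype.ext ?_⟩
  show MonoidAlgebra.single (1 : G) c * S (x : MonoidAlgebra K G) = (x : MonoidAlgebra K G)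
  have h : S (x : MonoidAlgebra K G) = (Fintype.card G : K) • (x : MonoidAlgebra K G) := by
    have h1 : ∀ g : G, MonoidAlgebra.single g (1 : K) *
        (π (MonoidAlgebra.single g⁻¹ 1 * (x : MonoidAlgebra K G)) : MonoidAlgebra K G) = x :=
      fun g => by
      have hw : MonoidAlgebra.single g⁻¹ (1 : K) * (x : MonoidAlgebra K G) ∈ W :=
        W.smul_mem _ x.2
      have h2 : π (MonoidAlgebra.single g⁻¹ 1 * (x : MonoidAlgebra K G)) = ⟨_, hw⟩ :=
        Submodule.projectionOnto_apply_left hP ⟨_, hw⟩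
      rw [h2, ← mul_assoc, MonoidAlgebra.single_mul_single, mul_inv_cancel, one_mul,
        ← MonoidAlgebra.one_def, one_mul]
    simp only [S, h1, Finset.sum_const, Finset.card_univ, Nat.cast_smul_eq_nsmul]
  rw [h, ← hsmul, smul_smul, inv_mul_cancel₀ (Nat.cast_ne_zero.2 Fintype.card_ne_zero), one_smul]

end Maschke

variable {D : Type*} [DivisionRing D] [Algebra ℚ D] {O : Subring D} {G : Type*} [Group G]

/-- The algebra acting on the order through a homomorphism. -/
abbrev GroupOpAlg (D : Type*) [DivisionRing D] (G : Type*) [Group G] : Type _ :=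
  MonoidAlgebra Dᵐᵒᵖ G

/-- The algebra `D` with the action of a homomorphism on the left. -/
def RhoModule (_ : G →* Oˣ) : Type _ := D

/-- The left multiplications by the image. -/
def leftAct (ρ : G →* Oˣ) : G →* AddMonoid.End D :=
  ((Module.toAddMonoidEnd D D).toMonoidHom.comp O.subtype.toMonoidHom).comp
    ((Units.coeHom O).comp ρ)

omit [Algebra ℚ D] in
theorem leftAct_apply (ρ : G →* Oˣ) (g : G) (v : D) :
    leftAct ρ g v = ((ρ g : O) : D) * v := rfl

/-- The action of the algebra. -/
def actHom (ρ : G →* Oˣ) : GroupOpAlg D G →+* AddMonoid.End D :=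
  MonoidAlgebra.liftNCRingHom (Module.toAddMonoidEnd Dᵐᵒᵖ D) (leftAct ρ) fun a g =>
    AddMonoidHom.ext fun v => by
      show leftAct ρ g v * a.unop = leftAct ρ g (v * a.unop)
      rw [leftAct_apply, leftAct_apply, mul_assoc]

omit [Algebra ℚ D] in
theorem actHom_single (ρ : G →* Oˣ) (g : G) (a : Dᵐᵒᵖ) (v : D) :
    actHom ρ (MonoidAlgebra.single g a) v = ((ρ g : O) : D) * v * a.unop := by
  show (MonoidAlgebra.liftNC _ _ (MonoidAlgebra.single g a) : AddMonoid.End D) v = _
  rw [MonoidAlgebra.liftNC_single]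
  rfl

instance (ρ : G →* Oˣ) : AddCommGroup (RhoModule ρ) := inferInstanceAs (AddCommGroup D)

instance (ρ : G →* Oˣ) : Module ℚ (RhoModule ρ) := inferInstanceAs (Module ℚ D)

instance (ρ : G →* Oˣ) : Module (GroupOpAlg D G) (RhoModule ρ) where
  smul a v := actHom ρ a v
  one_smul v := DFunLike.congr_fun (map_one (actHom ρ)) v
  mul_smul a b v := DFunLike.congr_fun (map_mul (actHom ρ) a b) v
  smul_zero a := map_zero (actHom ρ a)
  smul_add a v w := map_add (actHom ρ a) v w
  add_smul a b v := DFunLike.congr_fun (map_add (actHom ρ) a b) v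
  zero_smul v := DFunLike.congr_fun (map_zero (actHom ρ)) v

omit [Algebra ℚ D] in
theorem single_smul (ρ : G →* Oˣ) (g : G) (a : Dᵐᵒᵖ) (v : RhoModule ρ) :
    MonoidAlgebra.single g a • v = (((ρ g : O) : D) * (show D from v) * a.unop : D) :=
  actHom_single ρ g a v

instance (ρ : G →* Oˣ) : IsScalarTower ℚ (GroupOpAlg D G) (RhoModule ρ) :=
  ⟨fun q a v => by
    rw [Algebra.smul_def, mul_smul, MonoidAlgebra.coe_algebraMap, Function.comp_apply, single_smul]
    generalize a • v = w
    revert w
    show ∀ w : D, ((ρ 1 : O) : D) * w * algebraMap ℚ D q = q • w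
    intro w
    rw [map_one, Units.val_one, Subring.coe_one, one_mul, Algebra.smul_def, Algebra.commutes q w]⟩

/-- An element of `D` in the module. -/
def toRho (ρ : G →* Oˣ) (x : D) : RhoModule ρ := x

/-- An element of the module in `D`. -/
def ofRho {ρ : G →* Oˣ} (v : RhoModule ρ) : D := v

/-- The order in the module. -/
def latMod (ρ : G →* Oˣ) : Submodule ℤ (RhoModule ρ) := lat (D := D) O

omit [Algebra ℚ D] in
theorem ofRho_single_smul (ρ : G →* Oˣ) (g : G) (a : D) (v : RhoModule ρ) :
    ofRho (MonoidAlgebra.single g (op a) • v) = ((ρ g : O) : D) * ofRho v * a :=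
  single_smul ρ g (op a) v

/-- The lattice of the group algebra. -/
def groupLat (O : Subring D) (G : Type*) [Group G] : Submodule ℤ (GroupOpAlg D G) :=
  ⨆ g : G, (opLat O).map (MonoidAlgebra.lsingle g)

omit [Algebra ℚ D] in
theorem isFull_groupLat (hO : IsOrder O) [Finite G] : IsFull (groupLat O G) := by
  refine ⟨Submodule.fg_iSup _ fun g => (isFull_opLat hO).1.map _, fun v => ?_⟩
  induction v using MonoidAlgebra.induction_linear with
  | zero => exact ⟨1, one_ne_zero, by simp⟩
  | add x y hx hy =>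
    obtain ⟨a, ha, hx⟩ := hx
    obtain ⟨b, hb, hy⟩ := hy
    refine ⟨a * b, mul_ne_zero ha hb, ?_⟩
    rw [smul_add]
    refine add_mem ?_ ?_
    · rw [mul_comm, mul_smul]; exact nsmul_mem hx b
    · rw [mul_smul]; exact nsmul_mem hy a
  | single g r =>
    obtain ⟨m, hm, h⟩ := (isFull_opLat hO).2 r
    refine ⟨m, hm, Submodule.mem_iSup_of_mem g ⟨m • r, h, ?_⟩⟩
    exact (MonoidAlgebra.smul_single m g r).symm

/-- **Finitely many homomorphisms up to conjugation.** -/
theorem finite_homs (hO : IsOrder O) (G : Type*) [Group G] [Finite G] :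
    ∃ F : Finset (G →* Oˣ), ∀ ρ : G →* Oˣ, ∃ σ ∈ F, ∃ u : Oˣ, ∀ g, σ g = u * ρ g * u⁻¹ := by
  classical
  obtain ⟨n, b, -⟩ := exists_isIntBasis hO.1 hO.2
  haveI : FiniteDimensional ℚ D := Module.Finite.of_basis b
  haveI : FiniteDimensional ℚ Dᵐᵒᵖ := Module.Finite.equiv (opLinearEquiv ℚ (M := D))
  haveI : IsSemisimpleRing (GroupOpAlg D G) := @isSemisimpleRing_monoidAlgebra Dᵐᵒᵖ _
    (charZero_of_injective_algebraMap (algebraMap ℚ Dᵐᵒᵖ).injective) G _ _
  haveI : FiniteDimensional ℚ (GroupOpAlg D G) :=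
    Module.Finite.trans Dᵐᵒᵖ (GroupOpAlg D G)
  obtain ⟨F, hFfin, hF⟩ := exists_finite_lattices (isFull_groupLat hO (G := G)) n
  have hkey : ∀ ρ : G →* Oˣ, ∃ SL ∈ F, ∃ e : RhoModule ρ ≃ₗ[GroupOpAlg D G] SL.1,
      Submodule.map e.toAddEquiv.toIntLinearEquiv.toLinearMap (latMod ρ) = SL.2 := by
    intro ρ
    haveI : FiniteDimensional ℚ (RhoModule ρ) := inferInstanceAs (FiniteDimensional ℚ D)
    have hdim : finrank ℚ D = n := by rw [Module.finrank_eq_card_basis b, Fintype.card_fin]
    have hd : finrank ℚ (RhoModule ρ) ≤ n := hdim.le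
    refine hF (RhoModule ρ) hd (latMod ρ) hO.isFull fun r hr x hx => ?_
    refine Submodule.iSup_induction _ (motive := fun r => r • x ∈ latMod ρ) hr (fun g r hr => ?_)
      (by rw [zero_smul]; exact zero_mem _) (fun a b ha hb => by rw [add_smul]; exact add_mem ha hb)
    obtain ⟨_, ⟨a, ha, rfl⟩, rfl⟩ := hr
    show ofRho (MonoidAlgebra.single g (op a) • x) ∈ O
    rw [ofRho_single_smul]
    exact O.mul_mem (O.mul_mem (ρ g : O).2 hx) ha
  choose SL hSL e he using hkey
  have hfin : (Set.range SL).Finite := hFfin.subset (Set.range_subset_iff.2 hSL)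
  choose rep hrep using fun y : Set.range SL => y.2
  haveI := hfin.fintype
  refine ⟨Finset.univ.image rep, fun ρ => ?_⟩
  set σ := rep ⟨SL ρ, ρ, rfl⟩
  refine ⟨σ, Finset.mem_image_of_mem _ (Finset.mem_univ _), ?_⟩
  have hiso : ∀ a b : G →* Oˣ, SL a = SL b →
      ∃ h : RhoModule a ≃ₗ[GroupOpAlg D G] RhoModule b,
        (∀ x ∈ latMod a, h x ∈ latMod b) ∧ ∀ x ∈ latMod b, h.symm x ∈ latMod a := by
    intro a b hab
    have hea := he a
    have heb := he b
    revert hea heb
    generalize e a = ea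
    generalize e b = eb
    revert ea eb
    rw [hab]
    intro ea eb hea heb
    refine ⟨ea.trans eb.symm, fun x hx => ?_, fun x hx => ?_⟩
    · have hmem : ea x ∈ (SL b).2 := hea ▸ ⟨x, hx, rfl⟩
      rw [← heb] at hmem
      obtain ⟨y, hy, hy'⟩ := hmem
      show eb.symm (ea x) ∈ latMod b
      rwa [eb.symm_apply_eq.2 hy'.symm]
    · have hmem : eb x ∈ (SL b).2 := heb ▸ ⟨x, hx, rfl⟩
      rw [← hea] at hmem
      obtain ⟨y, hy, hy'⟩ := hmem
      show ea.symm (eb x) ∈ latMod a
      rwa [ea.symm_apply_eq.2 hy'.symm]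
  obtain ⟨h, hh, hh'⟩ := hiso ρ σ (hrep ⟨SL ρ, ρ, rfl⟩).symm
  have hlin : ∀ (g : G) (x : D), ofRho (h (toRho ρ (((ρ g : O) : D) * x))) =
      ((σ g : O) : D) * ofRho (h (toRho ρ 1)) * x := by
    intro g x
    have h1 := congrArg ofRho (h.map_smul (MonoidAlgebra.single g (op x)) (toRho ρ 1))
    rw [ofRho_single_smul] at h1
    rw [← h1]
    congr 2
    show ((ρ g : O) : D) * x = ofRho (MonoidAlgebra.single g (op x) • toRho ρ 1)
    rw [ofRho_single_smul]
    exact congrArg (· * x) (mul_one _).symm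
  obtain ⟨u, hu⟩ : ∃ u : O, (u : D) = ofRho (h (toRho ρ 1)) :=
    ⟨⟨_, hh (toRho ρ 1) (one_mem O)⟩, rfl⟩
  obtain ⟨v, hv⟩ : ∃ v : O, (v : D) = ofRho (h.symm (toRho σ 1)) :=
    ⟨⟨_, hh' (toRho σ 1) (one_mem O)⟩, rfl⟩
  have hmul : ∀ x : D, ofRho (h (toRho ρ x)) = (u : D) * x := fun x => by
    have h1 := hlin 1 x
    simp only [map_one, Units.val_one, Subring.coe_one, one_mul] at h1
    rw [h1, hu]
  have huv : (u : D) * v = 1 := by
    rw [← hmul, hv]
    exact congrArg ofRho (h.apply_symm_apply _)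
  have hvu : (v : D) * u = 1 := by
    have hu0 : (u : D) ≠ 0 := left_ne_zero_of_mul (by rw [huv]; exact one_ne_zero)
    rw [eq_inv_of_mul_eq_one_right huv, inv_mul_cancel₀ hu0]
  refine ⟨⟨u, v, Subtype.ext huv, Subtype.ext hvu⟩, fun g => ?_⟩
  rw [eq_mul_inv_iff_mul_eq]
  refine Units.ext (Subtype.ext ?_)
  show ((σ g : O) : D) * (u : D) = (u : D) * ((ρ g : O) : D)
  have h1 := hlin g 1
  simp only [mul_one] at h1
  rw [hu, ← h1, hmul, hu]

/-- The integral matrices of an order. -/
def matrixHom {n : ℕ} {b : Basis (Fin n) ℚ D} (hb : IsIntBasis O b) :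
    O →+* Matrix (Fin n) (Fin n) ℤ where
  toFun x := (hb.exists_int x.2).choose
  map_one' := Matrix.map_injective (Int.castRingHom ℚ).injective_int (by
    beta_reduce
    rw [(hb.exists_int (1 : O).2).choose_spec, Subring.coe_one, map_one,
      Matrix.map_one _ (map_zero _) (map_one _)])
  map_mul' x y := Matrix.map_injective (Int.castRingHom ℚ).injective_int (by
    beta_reduce
    rw [Matrix.map_mul, (hb.exists_int x.2).choose_spec, (hb.exists_int y.2).choose_spec,
      (hb.exists_int (x * y).2).choose_spec, Subring.coe_mul, map_mul])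
  map_zero' := Matrix.map_injective (Int.castRingHom ℚ).injective_int (by
    beta_reduce
    rw [(hb.exists_int (0 : O).2).choose_spec, Subring.coe_zero, map_zero,
      Matrix.map_zero _ (map_zero _)])
  map_add' x y := Matrix.map_injective (Int.castRingHom ℚ).injective_int (by
    beta_reduce
    rw [Matrix.map_add _ (map_add _), (hb.exists_int x.2).choose_spec,
      (hb.exists_int y.2).choose_spec, (hb.exists_int (x + y).2).choose_spec, Subring.coe_add,
      map_add])

theorem matrixHom_injective {n : ℕ} {b : Basis (Fin n) ℚ D} (hb : IsIntBasis O b) :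
    Function.Injective (matrixHom hb) := fun x y h =>
  Subtype.ext (Algebra.leftMulMatrix_injective b (by
  rw [← (hb.exists_int x.2).choose_spec, ← (hb.exists_int y.2).choose_spec]
  exact congrArg (fun A => A.map (Int.castRingHom ℚ)) h))

/-- **Finitely many classes of finite subgroups.** -/
theorem finite_subgroups (hO : IsOrder O) :
    ∃ F : Finset (Subgroup Oˣ), ∀ H : Subgroup Oˣ, Finite H →
      ∃ H' ∈ F, ∃ u : Oˣ, H' = H.map (MulAut.conj u).toMonoidHom := by
  classical
  obtain ⟨n, b, hb⟩ := exists_isIntBasis hO.1 hO.2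
  set ι : Oˣ →* GL (Fin n) ℤ := Units.map (matrixHom hb).toMonoidHom
  have hι : Function.Injective ι := Units.map_injective (matrixHom_injective hb)
  obtain ⟨T, hT⟩ := finite_subgroup_classes n
  have hrep : ∀ H₀ : Subgroup (GL (Fin n) ℤ), ∃ F : Finset (H₀ →* Oˣ), Finite H₀ →
      ∀ ρ : H₀ →* Oˣ, ∃ σ ∈ F, ∃ u : Oˣ, ∀ g, σ g = u * ρ g * u⁻¹ := fun H₀ => by
    by_cases hfin : Finite H₀
    · obtain ⟨F, hF⟩ := finite_homs hO H₀
      exact ⟨F, fun _ => hF⟩
    · exact ⟨∅, fun h => absurd h hfin⟩
  choose R hR using hrep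
  refine ⟨T.biUnion fun H₀ => (R H₀).image MonoidHom.range, fun H hH => ?_⟩
  let e₁ : H ≃* H.map ι := H.equivMapOfInjective ι hι
  haveI : Finite (H.map ι) := Finite.of_equiv _ e₁.toEquiv
  obtain ⟨H₀, hH₀, P, hP⟩ := hT (H.map ι) inferInstance
  let e₂ : H.map ι ≃* H₀ :=
    ((H.map ι).equivMapOfInjective _ (MulAut.conj P).injective).trans
      (MulEquiv.subgroupCongr hP.symm)
  let e := e₁.trans e₂
  haveI : Finite H₀ := Finite.of_equiv _ e.toEquiv
  obtain ⟨σ, hσ, u, hu⟩ := hR H₀ inferInstance (H.subtype.comp e.symm.toMonoidHom)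
  refine ⟨σ.range, Finset.mem_biUnion.2 ⟨H₀, hH₀, Finset.mem_image_of_mem _ hσ⟩, u, ?_⟩
  ext x
  simp only [MonoidHom.mem_range, Subgroup.mem_map, MulEquiv.coe_toMonoidHom, MulAut.conj_apply]
  constructor
  · rintro ⟨y, rfl⟩
    exact ⟨_, (e.symm y).2, (hu y).symm⟩
  · rintro ⟨y, hy, rfl⟩
    refine ⟨e ⟨y, hy⟩, ?_⟩
    rw [hu]
    simp

end FA.Orders

end
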